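import Fermat.Agent.S22_helper97.Lattice
import Fermat.Agent.S22_helper7.Separation

open UpperHalfPlane ModularForm Derivative Polynomial
open scoped MatrixGroups ModularForm Manifold
open Fermat.Agent.S22_helper8 Fermat.Agent.S22_helper15 Fermat.Agent.S22_helper71 Fermat.Agent.S22_helper22

namespace Fermat.Agent.S22_helper97

variable {N : ℕ} [NeZero N] {m : ℕ}

/-- Separation: a cusp form all of whose period functions vanish is zero. -/
theorem eq_zero_of_periodFun_eq_zero (hm : 1 ≤ m) (f : CF N m)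
    (h : ∀ γ ∈ CongruenceSubgroup.Gamma0 N, periodFun N m γ f = 0) : f = 0 := by
  refine Fermat.Agent.S22_helper7.eq_zero_of_eichler_invariant
    (fun m _ _ hh hφ hper hzero => exists_iterated_antideriv m hh hφ hper hzero)
    (fun m _ hF _ hg => bol m hF hg)
    (fun m _ hG h0 => exists_poly_of_iterate_D_eq_zero m hG h0)
    (fun hh hper => exists_const_of_periodic_polyFun hh hper)
    hm f (eichlerFun f) (eichlerFun_mdiff f) (eichlerFun_zero f) (iterate_D_eichlerFun f) ?_
  rintro _ ⟨γ, hγ, rfl⟩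
  have := h γ hγ
  rw [periodFun_apply, sub_eq_zero] at this
  exact this

/-- The Hecke compatibility of the period polynomials, as a hypothesis shape. -/
def HeckeFormula (N : ℕ) [NeZero N] (m : ℕ) (T : CF N m →ₗ[ℂ] CF N m) : Prop :=
  ∀ {γ : SL(2, ℤ)}, γ ∈ CongruenceSubgroup.Gamma0 N →
    ∃ (ι : Type) (_ : Fintype ι) (γ' : ι → SL(2, ℤ)) (a b c d : ι → ℤ),
      (∀ x, γ' x ∈ CongruenceSubgroup.Gamma0 N) ∧
      ∀ f : CF N m, periodPoly N m γ (T f) =
        ∑ x, polySlash m (a x) (b x) (c x) (d x) (periodPoly N m (γ' x) f)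

theorem periodLattice_comp_mem {s : Finset SL(2, ℤ)}
    (hsub : (s : Set SL(2, ℤ)) ⊆ CongruenceSubgroup.Gamma0 N)
    (hs : Subgroup.closure (s : Set SL(2, ℤ)) = CongruenceSubgroup.Gamma0 N)
    {T : CF N m →ₗ[ℂ] CF N m} (hT : HeckeFormula N m T) :
    ∀ l ∈ periodLattice N m s, l ∘ₗ T ∈ periodLattice N m s := by
  intro l hl
  induction hl using Submodule.span_induction with
  | mem l hl =>
    obtain ⟨⟨γ, i⟩, hmem, rfl⟩ := hl
    have hmem' : γ ∈ s ∧ i < m := by simpa using hmem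
    have hγ : γ ∈ CongruenceSubgroup.Gamma0 N := hsub hmem'.1
    obtain ⟨ι, _, γ', a, b, c, d, hγ', hf⟩ := hT hγ
    have hQ : periodPoly N m γ ∘ₗ T =
        ∑ x, polySlash m (a x) (b x) (c x) (d x) ∘ₗ periodPoly N m (γ' x) := by
      ext1 f
      simp [hf, LinearMap.sum_apply]
    have hC : CoeffsIn (periodLattice N m s) m (periodPoly N m γ ∘ₗ T) := by
      rw [hQ]
      exact CoeffsIn.sum _ fun x _ => (coeffsIn_periodPoly hs (hγ' x)).polySlash _ _ _ _
    exact hC i hmem'.2
  | zero => simp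
  | add x y _ _ hx hy =>
    rw [LinearMap.add_comp]; exact Submodule.add_mem _ hx hy
  | smul c x _ hx =>
    rw [LinearMap.smul_comp]; exact Submodule.smul_mem _ c hx

theorem periodLattice_separating {s : Finset SL(2, ℤ)}
    (hs : Subgroup.closure (s : Set SL(2, ℤ)) = CongruenceSubgroup.Gamma0 N) (hm : 1 ≤ m)
    (f : CF N m) (hf : ∀ l ∈ periodLattice N m s, l f = 0) : f = 0 := by
  refine eq_zero_of_periodFun_eq_zero hm f fun γ hγ => ?_
  have hP : periodPoly N m γ f = 0 := by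
    ext i
    rcases lt_or_ge i m with hi | hi
    · have := hf _ (coeffsIn_periodPoly hs hγ i hi)
      simpa using this
    · rw [coeff_zero]
      exact coeff_eq_zero_of_degree_lt
        ((degree_periodPoly_lt f hγ).trans_le (by exact_mod_cast hi))
  rw [← polyFun_periodPoly f hγ, hP, polyFun_zero]

/-- Finiteness of the Hecke algebra in weight `1 + m ≥ 2`, given the Hecke formulas. -/
theorem finite_heckeAlgebra_of_heckeFormula (N : ℕ) [NeZero N] (m : ℕ) (hm : 1 ≤ m) (S : Set ℕ)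
    (hT : ∀ (ℓ : ℕ) (hℓ : ℓ.Prime) (hℓN : ¬ ℓ ∣ N),
      HeckeFormula N m (CuspForm.heckeTLin ((1 : ℤ) + m) hℓ hℓN))
    (hU : ∀ (q : ℕ) (hqN : q ∣ N), q.Prime →
      HeckeFormula N m (CuspForm.heckeULin ((1 : ℤ) + m) hqN)) :
    Module.Finite ℤ (CuspForm.heckeAlgebra N ((1 : ℤ) + m) S) := by
  obtain ⟨s, hsub, hs⟩ := exists_finset_closure_eq_gamma0 N
  exact finite_heckeAlgebra_of_dual_lattice N _ S (periodLattice N m s) (periodLattice_fg s)
    (fun ℓ hℓ hℓN => periodLattice_comp_mem hsub hs (hT ℓ hℓ hℓN))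
    (fun q hqN hq => periodLattice_comp_mem hsub hs (hU q hqN hq))
    (periodLattice_separating hs hm)

end Fermat.Agent.S22_helper97
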