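import Fermat.Agent.S22_helper97.Period

open UpperHalfPlane ModularForm Derivative Polynomial
open scoped MatrixGroups ModularForm Manifold
open Fermat.Agent.S22_helper8 Fermat.Agent.S22_helper15 Fermat.Agent.S22_helper71 Fermat.Agent.S22_helper22

namespace Fermat.Agent.S22_helper97

variable {N : ℕ} [NeZero N] {m : ℕ}

theorem isZeroAtImInfty_finset_sum {ι : Type*} (s : Finset ι) {F : ι → ℍ → ℂ}
    (h : ∀ i ∈ s, IsZeroAtImInfty (F i)) : IsZeroAtImInfty (∑ i ∈ s, F i) := by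
  classical
  induction s using Finset.induction_on with
  | empty =>
    rw [Finset.sum_empty]
    exact Filter.zero_zeroAtFilter _
  | insert x t hx IH =>
    rw [Finset.sum_insert hx]
    exact Filter.ZeroAtFilter.add (h x (Finset.mem_insert_self _ _))
      (IH fun y hy => h y (Finset.mem_insert_of_mem hy))

theorem heckeMatrix_one_zero {p : ℕ} (hp : p ≠ 0) (j : ℕ) : (heckeMatrix p j) 1 0 = 0 := by
  simp [val_heckeMatrix hp]

theorem heckeDiagMatrix_one_zero {p : ℕ} (hp : p ≠ 0) : (heckeDiagMatrix p) 1 0 = 0 := by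
  simp [val_heckeDiagMatrix hp]

theorem val_det_heckeMatrix {p : ℕ} (hp : p ≠ 0) (j : ℕ) : (heckeMatrix p j).val.det = p := by
  rw [← Matrix.GeneralLinearGroup.val_det_apply]; exact det_heckeMatrix hp j

theorem val_det_heckeDiagMatrix {p : ℕ} (hp : p ≠ 0) : (heckeDiagMatrix p).val.det = p := by
  rw [← Matrix.GeneralLinearGroup.val_det_apply]; exact det_heckeDiagMatrix hp

section general

variable {p : ℕ} {E : ℍ → ℂ}

theorem mdiff_heckeU (hE : MDiff E) (k : ℤ) (p : ℕ) : MDiff (heckeU k p E) := by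
  rw [heckeU_def]
  exact mdiff_finset_sum _ fun j _ => hE.slash k _

theorem mdiff_heckeT (hE : MDiff E) (k : ℤ) (p : ℕ) : MDiff (heckeT k p E) := by
  rw [heckeT_eq_heckeU_add]
  exact (mdiff_heckeU hE k p).add (hE.slash k _)

theorem isZeroAtImInfty_heckeU (hp : p ≠ 0) (hE : IsZeroAtImInfty E) (k : ℤ) :
    IsZeroAtImInfty (heckeU k p E) := by
  rw [heckeU_def]
  exact isZeroAtImInfty_finset_sum _ fun j _ => hE.slash k (heckeMatrix_one_zero hp j)

theorem isZeroAtImInfty_heckeT (hp : p ≠ 0) (hE : IsZeroAtImInfty E) (k : ℤ) :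
    IsZeroAtImInfty (heckeT k p E) := by
  rw [heckeT_eq_heckeU_add]
  exact Filter.ZeroAtFilter.add (isZeroAtImInfty_heckeU hp hE k)
    (hE.slash k (heckeDiagMatrix_one_zero hp))

theorem iterate_D_slash_heckeMatrix (hp : p ≠ 0) (hE : MDiff E) (m : ℕ) (j : ℕ) :
    (p : ℂ) ^ m • D^[m] (E ∣[(1 : ℤ) - m] heckeMatrix p j) =
      (D^[m] E) ∣[(1 : ℤ) + m] heckeMatrix p j := by
  have hp' : (p : ℂ) ≠ 0 := by exact_mod_cast hp
  rw [bol m hE (by rw [val_det_heckeMatrix hp]; exact_mod_cast Nat.pos_of_ne_zero hp),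
    val_det_heckeMatrix hp, smul_smul, Complex.ofReal_natCast, ← mul_pow, mul_inv_cancel₀ hp',
    one_pow, one_smul]

theorem iterate_D_slash_heckeDiagMatrix (hp : p ≠ 0) (hE : MDiff E) (m : ℕ) :
    (p : ℂ) ^ m • D^[m] (E ∣[(1 : ℤ) - m] heckeDiagMatrix p) =
      (D^[m] E) ∣[(1 : ℤ) + m] heckeDiagMatrix p := by
  have hp' : (p : ℂ) ≠ 0 := by exact_mod_cast hp
  rw [bol m hE (by rw [val_det_heckeDiagMatrix hp]; exact_mod_cast Nat.pos_of_ne_zero hp),
    val_det_heckeDiagMatrix hp, smul_smul, Complex.ofReal_natCast, ← mul_pow, mul_inv_cancel₀ hp',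
    one_pow, one_smul]

theorem iterate_D_heckeU (hp : p ≠ 0) (hE : MDiff E) (m : ℕ) :
    D^[m] ((p : ℂ) ^ m • heckeU ((1 : ℤ) - m) p E) = heckeU ((1 : ℤ) + m) p (D^[m] E) := by
  rw [iterate_D_smul m _ (mdiff_heckeU hE _ p), heckeU_def, heckeU_def,
    iterate_D_finset_sum m _ (fun j _ => hE.slash _ _), Finset.smul_sum]
  exact Finset.sum_congr rfl fun j _ => iterate_D_slash_heckeMatrix hp hE m j

theorem iterate_D_heckeT (hp : p ≠ 0) (hE : MDiff E) (m : ℕ) :
    D^[m] ((p : ℂ) ^ m • heckeT ((1 : ℤ) - m) p E) = heckeT ((1 : ℤ) + m) p (D^[m] E) := by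
  rw [heckeT_eq_heckeU_add, heckeT_eq_heckeU_add, smul_add,
    iterate_D_add m ((mdiff_heckeU hE _ p).const_smul _) ((hE.slash _ _).const_smul _),
    iterate_D_heckeU hp hE m, iterate_D_smul m _ (hE.slash _ _),
    iterate_D_slash_heckeDiagMatrix hp hE m]

end general

theorem eichlerFun_heckeT {p : ℕ} (hp : p.Prime) (hpN : ¬ p ∣ N) (f : CF N m) :
    eichlerFun (CuspForm.heckeTLin ((1 : ℤ) + m) hp hpN f) =
      (p : ℂ) ^ m • heckeT ((1 : ℤ) - m) p (eichlerFun f) := by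
  apply eichlerFun_eq
  · exact (mdiff_heckeT (eichlerFun_mdiff f) _ p).const_smul _
  · exact (isZeroAtImInfty_heckeT hp.ne_zero (eichlerFun_zero f) _).smul _
  · rw [iterate_D_heckeT hp.ne_zero (eichlerFun_mdiff f) m, iterate_D_eichlerFun]
    rfl

theorem eichlerFun_heckeU {q : ℕ} (hq : q ≠ 0) (hqN : q ∣ N) (f : CF N m) :
    eichlerFun (CuspForm.heckeULin ((1 : ℤ) + m) hqN f) =
      (q : ℂ) ^ m • heckeU ((1 : ℤ) - m) q (eichlerFun f) := by
  apply eichlerFun_eq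
  · exact (mdiff_heckeU (eichlerFun_mdiff f) _ q).const_smul _
  · exact (isZeroAtImInfty_heckeU hq (eichlerFun_zero f) _).smul _
  · rw [iterate_D_heckeU hq (eichlerFun_mdiff f) m, iterate_D_eichlerFun]
    rfl

end Fermat.Agent.S22_helper97
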