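import Fermat.Agent.S22_helper97.HeckeEichler
import Fermat.Agent.S22_helper97.Main
import Fermat.Prelude.Sol.S_ModularForm_heckeT_slash_eq_self_of_mem_Gamma0

open UpperHalfPlane ModularForm Derivative Polynomial
open scoped MatrixGroups ModularForm Manifold
open Fermat.Agent.S22_helper8 Fermat.Agent.S22_helper15 Fermat.Agent.S22_helper71 Fermat.Agent.S22_helper22
open P2MW.S_ModularForm_heckeT_slash_eq_self_of_mem_Gamma0.ModularForm.HeckeSlashInvariance

namespace Fermat.Agent.S22_helper97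

variable {N : ℕ} [NeZero N] {m : ℕ}

theorem sub_slashGL (k : ℤ) (g : GL (Fin 2) ℝ) (a b : ℍ → ℂ) :
    (a - b) ∣[k] g = a ∣[k] g - b ∣[k] g := by
  rw [sub_eq_add_neg, SlashAction.add_slash, SlashAction.neg_slash, ← sub_eq_add_neg]

theorem polyFun_finset_sum {ι : Type*} (s : Finset ι) (P : ι → Polynomial ℂ) :
    polyFun (∑ x ∈ s, P x) = ∑ x ∈ s, polyFun (P x) :=
  map_sum polyFunL P s

/-- Integer entries of the Hecke coset representative. -/
noncomputable def repEntries (p : ℕ) (x : OnePoint (ZMod p)) : ℤ × ℤ × ℤ × ℤ :=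
  x.elim ((p : ℤ), 0, 0, 1) (fun j => (1, (j.val : ℤ), 0, (p : ℤ)))

theorem polyFun_polySlash_heckeRep {p : ℕ} (hp : p ≠ 0) (x : OnePoint (ZMod p))
    {P : Polynomial ℂ} (hP : P.degree < m) :
    polyFun (polySlash m (repEntries p x).1 (repEntries p x).2.1 (repEntries p x).2.2.1
      (repEntries p x).2.2.2 P) = (p : ℂ) ^ m • (polyFun P) ∣[(1 : ℤ) - m] heckeRep p x := by
  induction x using OnePoint.rec with
  | infty =>
    have h := polyFun_polySlash (m := m) (a := p) (b := 0) (c := 0) (d := 1)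
      (g := heckeDiagMatrix p) (by simp [val_heckeDiagMatrix hp]) (by simp [val_heckeDiagMatrix hp])
      (by simp [val_heckeDiagMatrix hp]) (by simp [val_heckeDiagMatrix hp])
      (by rw [val_det_heckeDiagMatrix hp]; exact_mod_cast Nat.pos_of_ne_zero hp) hP
    rw [val_det_heckeDiagMatrix hp, Complex.ofReal_natCast] at h
    exact h
  | coe j =>
    have h := polyFun_polySlash (m := m) (a := 1) (b := j.val) (c := 0) (d := p)
      (g := heckeMatrix p j.val) (by simp [val_heckeMatrix hp]) (by simp [val_heckeMatrix hp])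
      (by simp [val_heckeMatrix hp]) (by simp [val_heckeMatrix hp])
      (by rw [val_det_heckeMatrix hp]; exact_mod_cast Nat.pos_of_ne_zero hp) hP
    rw [val_det_heckeMatrix hp, Complex.ofReal_natCast] at h
    exact h

theorem heckeFormula_heckeT {p : ℕ} (hp : p.Prime) (hpN : ¬ p ∣ N) :
    HeckeFormula N m (CuspForm.heckeTLin ((1 : ℤ) + m) hp hpN) := by
  intro γ hγ
  have : Fact p.Prime := ⟨hp⟩
  have : NeZero p := ⟨hp.ne_zero⟩
  have hγN : (N : ℤ) ∣ γ 1 0 :=
    (ZMod.intCast_zmod_eq_zero_iff_dvd _ _).mp (CongruenceSubgroup.Gamma0_mem.mp hγ)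
  choose γ' hγ'N hmul using fun x : OnePoint (ZMod p) => heckeRep_mul hpN γ hγN x
  have hγ' : ∀ x, γ' x ∈ CongruenceSubgroup.Gamma0 N := fun x =>
    CongruenceSubgroup.Gamma0_mem.mpr ((ZMod.intCast_zmod_eq_zero_iff_dvd _ _).mpr (hγ'N x))
  let σ : Equiv.Perm (OnePoint (ZMod p)) := MulAction.toPerm (redMatrix p γ)
  refine ⟨OnePoint (ZMod p), inferInstance, γ', fun x => (repEntries p (σ x)).1,
    fun x => (repEntries p (σ x)).2.1, fun x => (repEntries p (σ x)).2.2.1,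
    fun x => (repEntries p (σ x)).2.2.2, hγ', fun f => ?_⟩
  apply polyFun_injective
  rw [polyFun_finset_sum, polyFun_periodPoly _ hγ, periodFun_apply, eichlerFun_heckeT,
    SL_smul_slash, ← smul_sub]
  set E := eichlerFun f with hE
  have h1 : (heckeT ((1 : ℤ) - m) p E) ∣[(1 : ℤ) - m] γ =
      ∑ x : OnePoint (ZMod p), (E ∣[(1 : ℤ) - m] γ' x) ∣[(1 : ℤ) - m] heckeRep p (σ x) := by
    rw [heckeT_eq_sum_onePoint, ModularForm.SL_slash, SlashAction.sum_slash]
    refine Finset.sum_congr rfl fun x _ => ?_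
    rw [← SlashAction.slash_mul]
    change E ∣[(1 : ℤ) - m] (heckeRep p x * Matrix.SpecialLinearGroup.mapGL ℝ γ) = _
    rw [hmul x, SlashAction.slash_mul]
    rfl
  have h2 : heckeT ((1 : ℤ) - m) p E =
      ∑ x : OnePoint (ZMod p), E ∣[(1 : ℤ) - m] heckeRep p (σ x) := by
    rw [heckeT_eq_sum_onePoint]
    exact (Equiv.sum_comp σ (fun x => E ∣[(1 : ℤ) - m] heckeRep p x)).symm
  rw [h1]
  conv_lhs => rw [h2]
  rw [← Finset.sum_sub_distrib, Finset.smul_sum]
  refine Finset.sum_congr rfl fun x _ => ?_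
  rw [polyFun_polySlash_heckeRep hp.ne_zero (σ x) (degree_periodPoly_lt f (hγ' x)),
    polyFun_periodPoly _ (hγ' x), periodFun_apply, sub_slashGL]

theorem polyFun_polySlash_heckeMatrix {q : ℕ} (hq : q ≠ 0) (j : ℕ)
    {P : Polynomial ℂ} (hP : P.degree < m) :
    polyFun (polySlash m 1 (j : ℤ) 0 (q : ℤ) P) =
      (q : ℂ) ^ m • (polyFun P) ∣[(1 : ℤ) - m] heckeMatrix q j := by
  have h := polyFun_polySlash (m := m) (a := 1) (b := j) (c := 0) (d := q)
    (g := heckeMatrix q j) (by simp [val_heckeMatrix hq]) (by simp [val_heckeMatrix hq])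
    (by simp [val_heckeMatrix hq]) (by simp [val_heckeMatrix hq])
    (by rw [val_det_heckeMatrix hq]; exact_mod_cast Nat.pos_of_ne_zero hq) hP
  rw [val_det_heckeMatrix hq, Complex.ofReal_natCast] at h
  exact h

theorem heckeFormula_heckeU {q : ℕ} (hqN : q ∣ N) :
    HeckeFormula N m (CuspForm.heckeULin ((1 : ℤ) + m) hqN) := by
  intro γ hγ
  have hq0 : q ≠ 0 := fun h => NeZero.ne N (by rw [h] at hqN; exact zero_dvd_iff.mp hqN)
  have : NeZero q := ⟨hq0⟩
  have hγN : (N : ℤ) ∣ γ 1 0 :=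
    (ZMod.intCast_zmod_eq_zero_iff_dvd _ _).mp (CongruenceSubgroup.Gamma0_mem.mp hγ)
  have hc : (q : ℤ) ∣ γ 1 0 := (Int.natCast_dvd_natCast.mpr hqN).trans hγN
  choose γ' hγ'c hmul using fun x : ZMod q => heckeMatrix_mul_of_dvd γ hc x
  have hγ' : ∀ x, γ' x ∈ CongruenceSubgroup.Gamma0 N := fun x => by
    rw [CongruenceSubgroup.Gamma0_mem, hγ'c x]
    push_cast
    rw [CongruenceSubgroup.Gamma0_mem.mp hγ, mul_zero]
  let σ : Equiv.Perm (ZMod q) := affinePerm γ ((ZMod.intCast_zmod_eq_zero_iff_dvd _ _).mpr hc)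
  refine ⟨ZMod q, inferInstance, γ', fun _ => 1, fun x => ((σ x).val : ℤ), fun _ => 0,
    fun _ => (q : ℤ), hγ', fun f => ?_⟩
  apply polyFun_injective
  rw [polyFun_finset_sum, polyFun_periodPoly _ hγ, periodFun_apply, eichlerFun_heckeU hq0,
    SL_smul_slash, ← smul_sub]
  set E := eichlerFun f with hE
  have h1 : (heckeU ((1 : ℤ) - m) q E) ∣[(1 : ℤ) - m] γ =
      ∑ x : ZMod q, (E ∣[(1 : ℤ) - m] γ' x) ∣[(1 : ℤ) - m] heckeMatrix q (σ x).val := by
    rw [heckeU_eq_sum_zmod, ModularForm.SL_slash, SlashAction.sum_slash]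
    refine Finset.sum_congr rfl fun x _ => ?_
    rw [← SlashAction.slash_mul]
    change E ∣[(1 : ℤ) - m] (heckeMatrix q x.val * Matrix.SpecialLinearGroup.mapGL ℝ γ) = _
    rw [hmul x, SlashAction.slash_mul]
    rfl
  have h2 : heckeU ((1 : ℤ) - m) q E =
      ∑ x : ZMod q, E ∣[(1 : ℤ) - m] heckeMatrix q (σ x).val := by
    rw [heckeU_eq_sum_zmod]
    exact (Equiv.sum_comp σ (fun x => E ∣[(1 : ℤ) - m] heckeMatrix q x.val)).symm
  rw [h1]
  conv_lhs => rw [h2]
  rw [← Finset.sum_sub_distrib, Finset.smul_sum]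
  refine Finset.sum_congr rfl fun x _ => ?_
  rw [polyFun_polySlash_heckeMatrix hq0 _ (degree_periodPoly_lt f (hγ' x)),
    polyFun_periodPoly _ (hγ' x), periodFun_apply, sub_slashGL]

/-- **Finiteness of the Hecke algebra** in weight `1 + m ≥ 2`. -/
theorem finite_heckeAlgebra_of_one_le (N : ℕ) [NeZero N] (m : ℕ) (hm : 1 ≤ m) (S : Set ℕ) :
    Module.Finite ℤ (CuspForm.heckeAlgebra N ((1 : ℤ) + m) S) :=
  finite_heckeAlgebra_of_heckeFormula N m hm S
    (fun _ hℓ hℓN => heckeFormula_heckeT hℓ hℓN) (fun _ hqN _ => heckeFormula_heckeU hqN)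

end Fermat.Agent.S22_helper97
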