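import Fermat.Agent.S22_helper8.Antideriv
import Fermat.Agent.S22_helper15.Bol
import Fermat.Agent.S22_helper71.PolyFun
import Fermat.Agent.S22_helper71.Gamma0FG
import Fermat.Agent.S22_helper22.Algebra
import Fermat.Agent.S22_helper22.EasyCases
import Fermat.Prelude.Def_CuspForm_HeckeAlgebra
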