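import Fermat.Agent.S22_helper97.Base
import Fermat.Prelude.Thm_CongruenceSubgroup_one_mem_strictPeriods_Gamma0

open UpperHalfPlane ModularForm Derivative
open scoped MatrixGroups ModularForm Manifold
open Fermat.Agent.S22_helper8 Fermat.Agent.S22_helper15 Fermat.Agent.S22_helper71 Fermat.Agent.S22_helper22

namespace Fermat.Agent.S22_helper97

variable {N : ℕ} [NeZero N] {m : ℕ}

/-- The space of cusp forms of weight `1 + m` on `Γ₀(N)`. -/
abbrev CF (N : ℕ) (m : ℕ) := CuspForm (CongruenceSubgroup.Gamma0 N) ((1 : ℤ) + m)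

theorem uniq_of_iterate_D_eq {m : ℕ} {G₁ G₂ : ℍ → ℂ} (h₁ : MDiff G₁) (h₂ : MDiff G₂)
    (z₁ : IsZeroAtImInfty G₁) (z₂ : IsZeroAtImInfty G₂) (h : D^[m] G₁ = D^[m] G₂) : G₁ = G₂ := by
  have h0 : D^[m] (G₁ - G₂) = 0 := by rw [iterate_D_sub m h₁ h₂, h, sub_self]
  obtain ⟨P, -, hP⟩ := exists_poly_of_iterate_D_eq_zero m (h₁.sub h₂) h0
  have hz : IsZeroAtImInfty (polyFun P) := by
    rw [← hP, sub_eq_add_neg]; exact Filter.ZeroAtFilter.add z₁ z₂.neg
  have := eq_zero_of_isZeroAtImInfty_polyFun hz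
  subst this
  have : G₁ - G₂ = 0 := by rw [hP]; ext z; simp [polyFun]
  exact sub_eq_zero.mp this

theorem cf_periodic (f : CF N m) : Function.Periodic ((f : ℍ → ℂ) ∘ ofComplex) (1 : ℝ) :=
  SlashInvariantFormClass.periodic_comp_ofComplex f
    (CongruenceSubgroup.one_mem_strictPeriods_Gamma0 N)

theorem cf_zero (f : CF N m) : IsZeroAtImInfty (f : ℍ → ℂ) :=
  CuspFormClass.zero_at_infty f

theorem exists_eichler (f : CF N m) :
    ∃ G : ℍ → ℂ, MDiff G ∧ Function.Periodic (G ∘ ofComplex) (1 : ℝ) ∧ IsZeroAtImInfty G ∧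
      D^[m] G = f :=
  exists_iterated_antideriv m one_pos (CuspFormClass.holo f) (cf_periodic f) (cf_zero f)

/-- The Eichler integral of `f`. -/
noncomputable def eichlerFun (f : CF N m) : ℍ → ℂ := Classical.choose (exists_eichler f)

theorem eichlerFun_mdiff (f : CF N m) : MDiff (eichlerFun f) :=
  (Classical.choose_spec (exists_eichler f)).1

theorem eichlerFun_periodic (f : CF N m) :
    Function.Periodic (eichlerFun f ∘ ofComplex) (1 : ℝ) :=
  (Classical.choose_spec (exists_eichler f)).2.1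

theorem eichlerFun_zero (f : CF N m) : IsZeroAtImInfty (eichlerFun f) :=
  (Classical.choose_spec (exists_eichler f)).2.2.1

theorem iterate_D_eichlerFun (f : CF N m) : D^[m] (eichlerFun f) = f :=
  (Classical.choose_spec (exists_eichler f)).2.2.2

theorem eichlerFun_eq {f : CF N m} {G : ℍ → ℂ} (hG : MDiff G) (hz : IsZeroAtImInfty G)
    (hD : D^[m] G = f) : eichlerFun f = G :=
  uniq_of_iterate_D_eq (eichlerFun_mdiff f) hG (eichlerFun_zero f) hz
    ((iterate_D_eichlerFun f).trans hD.symm)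

theorem eichlerFun_add (f g : CF N m) : eichlerFun (f + g) = eichlerFun f + eichlerFun g := by
  apply eichlerFun_eq ((eichlerFun_mdiff f).add (eichlerFun_mdiff g))
    ((eichlerFun_zero f).add (eichlerFun_zero g))
  rw [iterate_D_add m (eichlerFun_mdiff f) (eichlerFun_mdiff g), iterate_D_eichlerFun,
    iterate_D_eichlerFun]
  rfl

theorem eichlerFun_smul (c : ℂ) (f : CF N m) : eichlerFun (c • f) = c • eichlerFun f := by
  apply eichlerFun_eq ((eichlerFun_mdiff f).const_smul c) ((eichlerFun_zero f).smul c)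
  rw [iterate_D_smul m c (eichlerFun_mdiff f), iterate_D_eichlerFun]
  rfl

/-- The Eichler integral as a linear map. -/
noncomputable def eichler (N : ℕ) [NeZero N] (m : ℕ) : CF N m →ₗ[ℂ] (ℍ → ℂ) where
  toFun := eichlerFun
  map_add' := eichlerFun_add
  map_smul' := eichlerFun_smul

@[simp] theorem eichler_apply (f : CF N m) : eichler N m f = eichlerFun f := rfl

theorem sub_slash' (k : ℤ) (γ : SL(2, ℤ)) (a b : ℍ → ℂ) :
    (a - b) ∣[k] γ = a ∣[k] γ - b ∣[k] γ := by
  rw [sub_eq_add_neg, SlashAction.add_slash, SlashAction.neg_slash, ← sub_eq_add_neg]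

/-- The period function `E f ∣[1 - m] γ - E f`. -/
noncomputable def periodFun (N : ℕ) [NeZero N] (m : ℕ) (γ : SL(2, ℤ)) : CF N m →ₗ[ℂ] (ℍ → ℂ) where
  toFun f := (eichlerFun f) ∣[(1 : ℤ) - m] γ - eichlerFun f
  map_add' f g := by
    rw [eichlerFun_add, SlashAction.add_slash]; abel
  map_smul' c f := by
    rw [eichlerFun_smul, SL_smul_slash, RingHom.id_apply, smul_sub]

@[simp] theorem periodFun_apply (γ : SL(2, ℤ)) (f : CF N m) :
    periodFun N m γ f = (eichlerFun f) ∣[(1 : ℤ) - m] γ - eichlerFun f := rfl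

theorem periodFun_mul (γ γ' : SL(2, ℤ)) (f : CF N m) :
    periodFun N m (γ * γ') f = (periodFun N m γ f) ∣[(1 : ℤ) - m] γ' + periodFun N m γ' f := by
  simp only [periodFun_apply, SlashAction.slash_mul, sub_slash']
  abel

theorem periodFun_one (f : CF N m) : periodFun N m 1 f = 0 := by
  simp

theorem cf_slash_eq (f : CF N m) {γ : SL(2, ℤ)} (hγ : γ ∈ CongruenceSubgroup.Gamma0 N) :
    (f : ℍ → ℂ) ∣[(1 : ℤ) + m] γ = f :=
  SlashInvariantForm.slash_action_eqn f _ (Subgroup.mem_map_of_mem _ hγ)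

theorem det_mapGL (γ : SL(2, ℤ)) :
    ((Matrix.SpecialLinearGroup.mapGL ℝ γ : GL (Fin 2) ℝ).val).det = 1 := by
  rw [← Matrix.GeneralLinearGroup.val_det_apply]; simp

theorem mdiff_SL_slash {F : ℍ → ℂ} (hF : MDiff F) (k : ℤ) (γ : SL(2, ℤ)) : MDiff (F ∣[k] γ) :=
  hF.slash k (Matrix.SpecialLinearGroup.mapGL ℝ γ)

theorem iterate_D_periodFun (f : CF N m) {γ : SL(2, ℤ)} (hγ : γ ∈ CongruenceSubgroup.Gamma0 N) :
    D^[m] (periodFun N m γ f) = 0 := by
  rw [periodFun_apply, iterate_D_sub m (mdiff_SL_slash (eichlerFun_mdiff f) _ _) (eichlerFun_mdiff f),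
    bol_SL m (eichlerFun_mdiff f), iterate_D_eichlerFun, cf_slash_eq f hγ, sub_self]

theorem exists_poly_periodFun (f : CF N m) {γ : SL(2, ℤ)} (hγ : γ ∈ CongruenceSubgroup.Gamma0 N) :
    ∃ P : Polynomial ℂ, P.degree < m ∧ periodFun N m γ f = polyFun P :=
  exists_poly_of_iterate_D_eq_zero m
    ((mdiff_SL_slash (eichlerFun_mdiff f) _ _).sub (eichlerFun_mdiff f)) (iterate_D_periodFun f hγ)

end Fermat.Agent.S22_helper97
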