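import Fermat.Agent.S22_helper97.Period

open UpperHalfPlane ModularForm Derivative Polynomial
open scoped MatrixGroups ModularForm Manifold
open Fermat.Agent.S22_helper8 Fermat.Agent.S22_helper15 Fermat.Agent.S22_helper71 Fermat.Agent.S22_helper22

namespace Fermat.Agent.S22_helper97

section abstract

variable {V : Type*} [AddCommGroup V] [Module ℂ V]

/-- All coefficient functionals of index `< m` of `Q` lie in `Λ`. -/
def CoeffsIn (Λ : Submodule ℤ (Module.Dual ℂ V)) (m : ℕ) (Q : V →ₗ[ℂ] Polynomial ℂ) : Prop :=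
  ∀ i < m, (lcoeff ℂ i) ∘ₗ Q ∈ Λ

variable {Λ : Submodule ℤ (Module.Dual ℂ V)} {m : ℕ}

theorem CoeffsIn.zero : CoeffsIn Λ m (0 : V →ₗ[ℂ] Polynomial ℂ) := by
  intro i _
  simp

theorem CoeffsIn.add {Q₁ Q₂ : V →ₗ[ℂ] Polynomial ℂ} (h₁ : CoeffsIn Λ m Q₁)
    (h₂ : CoeffsIn Λ m Q₂) : CoeffsIn Λ m (Q₁ + Q₂) := by
  intro i hi
  rw [LinearMap.comp_add]
  exact Λ.add_mem (h₁ i hi) (h₂ i hi)

theorem CoeffsIn.neg {Q : V →ₗ[ℂ] Polynomial ℂ} (h : CoeffsIn Λ m Q) : CoeffsIn Λ m (-Q) := by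
  intro i hi
  rw [LinearMap.comp_neg]
  exact Λ.neg_mem (h i hi)

theorem CoeffsIn.sum {ι : Type*} (s : Finset ι) {Q : ι → V →ₗ[ℂ] Polynomial ℂ}
    (h : ∀ x ∈ s, CoeffsIn Λ m (Q x)) : CoeffsIn Λ m (∑ x ∈ s, Q x) := by
  classical
  induction s using Finset.induction_on with
  | empty => simpa using CoeffsIn.zero
  | insert x t hx IH =>
    rw [Finset.sum_insert hx]
    exact (h x (Finset.mem_insert_self _ _)).add
      (IH fun y hy => h y (Finset.mem_insert_of_mem hy))

theorem CoeffsIn.polySlash {Q : V →ₗ[ℂ] Polynomial ℂ} (h : CoeffsIn Λ m Q) (a b c d : ℤ) :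
    CoeffsIn Λ m (polySlash m a b c d ∘ₗ Q) := by
  intro j _
  have : (lcoeff ℂ j) ∘ₗ (Fermat.Agent.S22_helper97.polySlash m a b c d ∘ₗ Q) =
      ∑ i ∈ Finset.range m, ((slashMonomZ m a b c d i).coeff j : ℤ) • ((lcoeff ℂ i) ∘ₗ Q) := by
    ext v
    simp [coeff_polySlash, LinearMap.sum_apply]
  rw [this]
  exact Λ.sum_mem fun i hi => Λ.smul_mem _ (h i (Finset.mem_range.mp hi))

end abstract

variable {N : ℕ} [NeZero N] {m : ℕ}

/-- The period lattice: span of the coefficient functionals of the period polynomials at a finite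
set of group elements. -/
noncomputable def periodLattice (N : ℕ) [NeZero N] (m : ℕ) (s : Finset SL(2, ℤ)) :
    Submodule ℤ (Module.Dual ℂ (CF N m)) :=
  Submodule.span ℤ
    ((fun p : SL(2, ℤ) × ℕ => (lcoeff ℂ p.2) ∘ₗ periodPoly N m p.1) '' (s ×ˢ Finset.range m : Finset _))

theorem periodLattice_fg (s : Finset SL(2, ℤ)) : (periodLattice N m s).FG :=
  Submodule.fg_span ((Finset.finite_toSet _).image _)

theorem coeffsIn_periodPoly_of_mem {s : Finset SL(2, ℤ)} {γ : SL(2, ℤ)} (hγ : γ ∈ s) :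
    CoeffsIn (periodLattice N m s) m (periodPoly N m γ) := by
  intro i hi
  apply Submodule.subset_span
  exact ⟨(γ, i), by simp [hγ, hi], rfl⟩

theorem coeffsIn_periodPoly {s : Finset SL(2, ℤ)}
    (hs : Subgroup.closure (s : Set SL(2, ℤ)) = CongruenceSubgroup.Gamma0 N)
    {γ : SL(2, ℤ)} (hγ : γ ∈ CongruenceSubgroup.Gamma0 N) :
    CoeffsIn (periodLattice N m s) m (periodPoly N m γ) := by
  rw [← hs] at hγ
  induction hγ using Subgroup.closure_induction with
  | mem x hx => exact coeffsIn_periodPoly_of_mem (by simpa using hx)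
  | one =>
    have : periodPoly N m 1 = 0 := by ext1 f; simpa using periodPoly_one f
    rw [this]; exact CoeffsIn.zero
  | mul x y hx hy ihx ihy =>
    rw [hs] at hx hy
    have : periodPoly N m (x * y) = polySlashSL m y ∘ₗ periodPoly N m x + periodPoly N m y := by
      ext1 f; simpa using periodPoly_mul f hx hy
    rw [this]
    exact (ihx.polySlash _ _ _ _).add ihy
  | inv x hx ihx =>
    rw [hs] at hx
    have : periodPoly N m x⁻¹ = -(polySlashSL m x⁻¹ ∘ₗ periodPoly N m x) := by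
      ext1 f; simpa using periodPoly_inv f hx
    rw [this]
    exact (ihx.polySlash _ _ _ _).neg

end Fermat.Agent.S22_helper97
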