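import Fermat.Agent.S22_helper97.Base

open UpperHalfPlane ModularForm Derivative Polynomial
open scoped MatrixGroups ModularForm Manifold
open Fermat.Agent.S22_helper8 Fermat.Agent.S22_helper15 Fermat.Agent.S22_helper71 Fermat.Agent.S22_helper22

namespace Fermat.Agent.S22_helper97

/-- The integral polynomial `(aX+b)^i (cX+d)^(m-1-i)`. -/
noncomputable def slashMonomZ (m : ℕ) (a b c d : ℤ) (i : ℕ) : Polynomial ℤ :=
  (C a * X + C b) ^ i * (C c * X + C d) ^ (m - 1 - i)

/-- The same polynomial with complex coefficients. -/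
noncomputable def slashMonom (m : ℕ) (a b c d : ℤ) (i : ℕ) : Polynomial ℂ :=
  (slashMonomZ m a b c d i).map (Int.castRingHom ℂ)

theorem slashMonom_eq (m : ℕ) (a b c d : ℤ) (i : ℕ) :
    slashMonom m a b c d i =
      (C (a : ℂ) * X + C (b : ℂ)) ^ i * (C (c : ℂ) * X + C (d : ℂ)) ^ (m - 1 - i) := by
  simp [slashMonom, slashMonomZ]

theorem natDegree_slashMonomZ_le {m : ℕ} (a b c d : ℤ) {i : ℕ} (hi : i < m) :
    (slashMonomZ m a b c d i).natDegree ≤ m - 1 := by
  unfold slashMonomZ
  have h1 : (C a * X + C b : Polynomial ℤ).natDegree ≤ 1 := natDegree_linear_le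
  have h2 : (C c * X + C d : Polynomial ℤ).natDegree ≤ 1 := natDegree_linear_le
  calc _ ≤ ((C a * X + C b : Polynomial ℤ) ^ i).natDegree
        + ((C c * X + C d : Polynomial ℤ) ^ (m - 1 - i)).natDegree := natDegree_mul_le
    _ ≤ i * 1 + (m - 1 - i) * 1 := by
        gcongr
        · exact natDegree_pow_le_of_le i h1
        · exact natDegree_pow_le_of_le _ h2
    _ = m - 1 := by omega

theorem degree_slashMonom_lt {m : ℕ} (a b c d : ℤ) {i : ℕ} (hi : i < m) :
    (slashMonom m a b c d i).degree < m := by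
  have h := natDegree_slashMonomZ_le a b c d hi
  have h2 : (slashMonom m a b c d i).natDegree ≤ m - 1 := (natDegree_map_le).trans h
  have : (slashMonom m a b c d i).degree ≤ ((m - 1 : ℕ) : WithBot ℕ) :=
    degree_le_of_natDegree_le h2
  refine this.trans_lt ?_
  exact_mod_cast (by omega : m - 1 < m)

/-- The weight `1 - m` action of an integral matrix on polynomials of degree `< m`,
without the determinant factor. -/
noncomputable def polySlash (m : ℕ) (a b c d : ℤ) : Polynomial ℂ →ₗ[ℂ] Polynomial ℂ :=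
  ∑ i ∈ Finset.range m, (lcoeff ℂ i).smulRight (slashMonom m a b c d i)

theorem polySlash_apply (m : ℕ) (a b c d : ℤ) (P : Polynomial ℂ) :
    polySlash m a b c d P = ∑ i ∈ Finset.range m, P.coeff i • slashMonom m a b c d i := by
  simp [polySlash, LinearMap.sum_apply]

theorem coeff_polySlash (m : ℕ) (a b c d : ℤ) (P : Polynomial ℂ) (j : ℕ) :
    (polySlash m a b c d P).coeff j =
      ∑ i ∈ Finset.range m, ((slashMonomZ m a b c d i).coeff j : ℤ) • P.coeff i := by
  rw [polySlash_apply, finsetSum_coeff]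
  refine Finset.sum_congr rfl fun i _ => ?_
  simp [slashMonom, coeff_map, mul_comm]

theorem degree_polySlash_lt (m : ℕ) (a b c d : ℤ) (P : Polynomial ℂ) :
    (polySlash m a b c d P).degree < m := by
  rw [polySlash_apply]
  refine (degree_sum_le _ _).trans_lt ?_
  rcases Nat.eq_zero_or_pos m with rfl | hm
  · simp
  rw [Finset.sup_lt_iff (by exact_mod_cast WithBot.bot_lt_coe m)]
  intro i hi
  exact (degree_smul_le _ _).trans_lt (degree_slashMonom_lt a b c d (Finset.mem_range.mp hi))

/-- Evaluation of `polySlash`: it is `det ^ m` times the weight `1 - m` slash action. -/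
theorem polyFun_polySlash {m : ℕ} {a b c d : ℤ} {g : GL (Fin 2) ℝ}
    (h00 : g 0 0 = a) (h01 : g 0 1 = b) (h10 : g 1 0 = c) (h11 : g 1 1 = d)
    (hdet : 0 < g.val.det) {P : Polynomial ℂ} (hP : P.degree < m) :
    polyFun (polySlash m a b c d P) = ((g.val.det : ℂ)) ^ m • (polyFun P) ∣[(1 : ℤ) - m] g := by
  have hdet' : 0 < g.det.val := by
    rwa [Matrix.GeneralLinearGroup.val_det_apply]
  have hdetne : (g.val.det : ℂ) ≠ 0 := Complex.ofReal_ne_zero.mpr hdet.ne'
  ext z
  have hden : denom g z ≠ 0 := denom_ne_zero g z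
  have hσ (x) : σ g x = x := by
    simp [σ, hdet]
  have hsmul : ((g • z : ℍ) : ℂ) = num g z / denom g z := coe_smul_of_det_pos hdet' z
  have hnum : num g z = (a : ℂ) * z + b := by
    simp [num, h00, h01]
  have hdenom : denom g z = (c : ℂ) * z + d := by
    simp [denom, h10, h11]
  rcases Nat.eq_zero_or_pos m with rfl | hm
  · have : P = 0 := by simpa using hP
    subst this
    simp [polyFun, polySlash_apply, slash_apply]
  simp only [polyFun, polySlash_apply, Pi.smul_apply, slash_apply, smul_eq_mul, hσ]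
  rw [eval_finsetSum, eval_eq_sum_range' (n := m) (by
    rcases eq_or_ne P 0 with rfl | hP0
    · simpa using hm
    · exact (natDegree_lt_iff_degree_lt hP0).mpr hP), Finset.sum_mul, Finset.sum_mul,
    Finset.mul_sum]
  refine Finset.sum_congr rfl fun i hi => ?_
  have hi' : i ≤ m - 1 := by have := Finset.mem_range.mp hi; omega
  rw [eval_smul, slashMonom_eq, smul_eq_mul]
  simp only [eval_mul, eval_pow, eval_add, eval_C, eval_X]
  rw [hsmul, hnum, hdenom, Matrix.GeneralLinearGroup.val_det_apply, abs_of_pos hdet]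
  have hcd : (c : ℂ) * z + d ≠ 0 := hdenom ▸ hden
  have e1 : (1 : ℤ) - m - 1 = -(m : ℤ) := by ring
  have e2 : -((1 : ℤ) - m) = ((m - 1 : ℕ) : ℤ) := by
    rw [Nat.cast_sub hm]; push_cast; ring
  rw [e1, e2, zpow_neg, zpow_natCast, zpow_natCast, div_pow]
  have e3 : ((c : ℂ) * z + d) ^ (m - 1) = ((c : ℂ) * z + d) ^ (m - 1 - i) * ((c : ℂ) * z + d) ^ i := by
    rw [← pow_add]; congr 1; omega
  rw [e3]
  have hcd' : (z : ℂ) * c + d ≠ 0 := by rwa [mul_comm]
  field_simp

end Fermat.Agent.S22_helper97
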