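import Fermat.Agent.S22_helper97.Eichler
import Fermat.Agent.S22_helper97.PolySlash

open UpperHalfPlane ModularForm Derivative Polynomial
open scoped MatrixGroups ModularForm Manifold
open Fermat.Agent.S22_helper8 Fermat.Agent.S22_helper15 Fermat.Agent.S22_helper71 Fermat.Agent.S22_helper22

namespace Fermat.Agent.S22_helper97

variable {N : ℕ} [NeZero N] {m : ℕ}

/-- `polyFun` as a linear map. -/
noncomputable def polyFunL : Polynomial ℂ →ₗ[ℂ] (ℍ → ℂ) where
  toFun := polyFun
  map_add' P Q := by ext z; simp [polyFun]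
  map_smul' c P := by ext z; simp [polyFun]

@[simp] theorem polyFunL_apply (P : Polynomial ℂ) : polyFunL P = polyFun P := rfl

theorem periodFun_mem_range (f : CF N m) {γ : SL(2, ℤ)} (hγ : γ ∈ CongruenceSubgroup.Gamma0 N) :
    periodFun N m γ f ∈ LinearMap.range polyFunL := by
  obtain ⟨P, -, hP⟩ := exists_poly_periodFun f hγ
  exact ⟨P, hP.symm⟩

open Classical in
/-- The period polynomial of `f` at `γ ∈ Γ₀(N)` (zero for `γ ∉ Γ₀(N)`). -/
noncomputable def periodPoly (N : ℕ) [NeZero N] (m : ℕ) (γ : SL(2, ℤ)) :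
    CF N m →ₗ[ℂ] Polynomial ℂ :=
  if hγ : γ ∈ CongruenceSubgroup.Gamma0 N then
    (LinearEquiv.ofInjective polyFunL polyFun_injective).symm.toLinearMap ∘ₗ
      (periodFun N m γ).codRestrict (LinearMap.range polyFunL) (fun f => periodFun_mem_range f hγ)
  else 0

theorem polyFun_periodPoly (f : CF N m) {γ : SL(2, ℤ)} (hγ : γ ∈ CongruenceSubgroup.Gamma0 N) :
    polyFun (periodPoly N m γ f) = periodFun N m γ f := by
  rw [periodPoly, dif_pos hγ]
  have := (LinearEquiv.ofInjective polyFunL polyFun_injective).apply_symm_apply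
    ((periodFun N m γ).codRestrict (LinearMap.range polyFunL)
      (fun f => periodFun_mem_range f hγ) f)
  exact congrArg Subtype.val this

theorem degree_periodPoly_lt (f : CF N m) {γ : SL(2, ℤ)}
    (hγ : γ ∈ CongruenceSubgroup.Gamma0 N) : (periodPoly N m γ f).degree < m := by
  obtain ⟨P, hdeg, hP⟩ := exists_poly_periodFun f hγ
  have : periodPoly N m γ f = P :=
    polyFun_injective ((polyFun_periodPoly f hγ).trans hP)
  rwa [this]

/-- The action of `γ ∈ SL(2, ℤ)` on polynomials of degree `< m`. -/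
noncomputable def polySlashSL (m : ℕ) (γ : SL(2, ℤ)) : Polynomial ℂ →ₗ[ℂ] Polynomial ℂ :=
  polySlash m (γ 0 0) (γ 0 1) (γ 1 0) (γ 1 1)

theorem mapGL_apply' (γ : SL(2, ℤ)) (i j : Fin 2) :
    (Matrix.SpecialLinearGroup.mapGL ℝ γ : GL (Fin 2) ℝ) i j = ((γ i j : ℤ) : ℝ) := by
  simp

theorem polyFun_polySlashSL {P : Polynomial ℂ} (hP : P.degree < m) (γ : SL(2, ℤ)) :
    polyFun (polySlashSL m γ P) = (polyFun P) ∣[(1 : ℤ) - m] γ := by
  have h := polyFun_polySlash (m := m) (g := Matrix.SpecialLinearGroup.mapGL ℝ γ)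
    (mapGL_apply' γ 0 0) (mapGL_apply' γ 0 1) (mapGL_apply' γ 1 0) (mapGL_apply' γ 1 1)
    (by rw [det_mapGL]; exact one_pos) hP
  rw [det_mapGL] at h
  simp only [Complex.ofReal_one, one_pow, one_smul] at h
  exact h

theorem periodPoly_mul (f : CF N m) {γ γ' : SL(2, ℤ)} (hγ : γ ∈ CongruenceSubgroup.Gamma0 N)
    (hγ' : γ' ∈ CongruenceSubgroup.Gamma0 N) :
    periodPoly N m (γ * γ') f = polySlashSL m γ' (periodPoly N m γ f) + periodPoly N m γ' f := by
  apply polyFun_injective
  rw [polyFun_add, polyFun_periodPoly f (mul_mem hγ hγ'), polyFun_periodPoly f hγ',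
    polyFun_polySlashSL (degree_periodPoly_lt f hγ), polyFun_periodPoly f hγ, periodFun_mul]

theorem periodPoly_one (f : CF N m) : periodPoly N m 1 f = 0 := by
  apply polyFun_injective
  rw [polyFun_periodPoly f (one_mem _), periodFun_one, polyFun_zero]

theorem periodPoly_inv (f : CF N m) {γ : SL(2, ℤ)} (hγ : γ ∈ CongruenceSubgroup.Gamma0 N) :
    periodPoly N m γ⁻¹ f = - polySlashSL m γ⁻¹ (periodPoly N m γ f) := by
  have h := periodPoly_mul f hγ (inv_mem hγ)
  rw [mul_inv_cancel, periodPoly_one] at h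
  exact eq_neg_of_add_eq_zero_right h.symm

end Fermat.Agent.S22_helper97
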